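import Fermat.Agent.S48.B.Defs
import Fermat.Agent.S48.Int.Defs
import Fermat.Agent.NEB.H14_JHRules

/-!
# S48, mountain B2 (`B.Stmt_TatePieceH`): top level interfaces (helper43)

Plan: `NOTES/plan/W_S48_B.md`.  Everything is built on item 72's `J_H = Pic⁰(F_H)`
(`Fermat.Agent.NEB.JH`: `JH M c H`, `TH hβ`, `DiamondData`, Galois action on coefficients) with
`c = M` and `H = ker χ`.

Slices (each slice owner refines his slice in his own `Defs` file):

* **T** `Stmt_EigBot s s'` (`H = ⊥`; or `Stmt_EigH s s'`, `H = ker χ`) : the eigensystem of a weight two eigenvector with nebentypus occurs in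
  `J_H[ℓ] ⊗ k` (Betti cohomology of `Γ_H`, period map, torsion dictionary `J_H[ℓ] ≃ homPE(Γ_H, ℤ/ℓ)`).
* **R** `Stmt_TorsUnramH`, `Stmt_TorsESH` : good reduction of `X_H` at `q ∤ M`: inertia acts
  trivially on prime-to-`q` torsion, Eichler–Shimura with the diamond operator.
* **G** `Stmt_GALH` : every point of `J_H` is fixed by an open subgroup.
* **ASM** (helper55): `s' = 2 * s + 1` and the slices give `B.Stmt_TatePieceH'`.

The exponents `s, s' ∈ {0, 1, -1}` record the conventions (which power of the nebentypus the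
operators `T^H = α_* β^*` and `ρ(d)` of NEB see on the eigenvector of `G`; expected: `s = s' = -1`);
the owner of slice T proves `Stmt_EigH s s'` for the TRUE values and ASM twists by the Galois
character of `χ ^ s`.  Eichler–Shimura has the shape `ρ(q) σ² - T^H_q σ + q = 0`, so on the eigenspace
`σ² - φ(b_q χ(q)^(s - s')) σ + q φ(χ(q)^(-s')) = 0`, and `θ σ` with `θ(Frob_q) = φ(χ(q))^(s' - s)`
satisfies `X² - φ(b_q) X + q φ(χ(q))^(s' - 2 s) = 0`.  No `sorry`.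
-/

set_option autoImplicit false

noncomputable section

namespace Fermat.Agent.S48.B2

open AlgebraicCurve ModularCurve CongruenceSubgroup
open Fermat.Agent.NEB Fermat.Agent.NEB.JH
open scoped MatrixGroups

/-- The absolute Galois group of `ℚ`. -/
abbrev GQ : Type := Kbar ≃ₐ[ℚ] Kbar

/-- `H = ker χ ≤ (ℤ/M)ˣ`. -/
def kerH (M : ℕ) (χ : DirichletCharacter ℂ M) : Subgroup (ZMod M)ˣ := χ.toUnitHom.ker

/-- The `n`-torsion of `J_H`. -/
abbrev torsH (M c : ℕ) (H : Subgroup (ZMod c)ˣ) (n : ℕ) : AddSubgroup (JH M c H) :=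
  (nsmulAddMonoidHom (α := JH M c H) n).ker

/-! ## Slice R: good reduction -/

/-- **R-unr**: inertia at `q ∤ M n` acts trivially on `J_H[n]` (`n` prime to `6`, and (SQ): no
prime `r ∣ n` has `r² ∣ c`). -/
def Stmt_TorsUnramH : Prop :=
  ∀ (M c : ℕ) (H : Subgroup (ZMod c)ˣ), 2 ≤ c → c ∣ M → M ≠ 0 →
    ∀ n q : ℕ, q.Prime → ¬ q ∣ M → ¬ q ∣ n → Nat.Coprime n 6 →
      (∀ r : ℕ, r.Prime → r ∣ n → ¬ r ^ 2 ∣ c) →
      ∀ P : ValuationSubring Kbar, P.LiesOverPrime q →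
        ∀ σ ∈ P.inertiaSubgroupIn ℚ, ∀ x : JH M c H, n • x = 0 → σ • x = x

/-- **R-es**: the Eichler–Shimura relation on `J_H[n]` at `q ∤ M n`, in the TRUE shape for the
operators of NEB (helper70's `isRedOneC_ES` with `coe_THfn`):
`ρ(q) σ² - T^H_q σ + q = 0` for every Frobenius element `σ` at `q`. -/
def Stmt_TorsESH : Prop :=
  ∀ (M c : ℕ) (H : Subgroup (ZMod c)ˣ), 2 ≤ c → c ∣ M → M ≠ 0 →
    ∀ (n q : ℕ) [NeZero q], q.Prime → ¬ q ∣ M → ¬ q ∣ n → Nat.Coprime n 6 →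
      (∀ r : ℕ, r.Prime → r ∣ n → ¬ r ^ 2 ∣ c) →
      ∀ (hβ : BetaOK M c q H) (dd : DiamondData M c H) (qu : (ZMod c)ˣ),
        ((qu : (ZMod c)ˣ) : ZMod c) = (q : ZMod c) →
        ∀ A : ValuationSubring Kbar, A.LiesOverPrime q →
          ∀ σ : GQ, A.IsFrobeniusAt σ q → ∀ x : JH M c H, n • x = 0 →
            dd.ρ qu • (σ • σ • x) - TH hβ (σ • x) + q • x = 0

/-! ## Slice G: continuity -/

/-- **G**: every point of `J_H` is fixed by the Galois group of a number field. -/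
def Stmt_GALH : Prop :=
  ∀ (M c : ℕ) (H : Subgroup (ZMod c)ˣ), 2 ≤ c → c ∣ M → M ≠ 0 →
    ∀ y : JH M c H, ∃ L : IntermediateField ℚ Kbar, FiniteDimensional ℚ L ∧
      ∀ σ : GQ, (∀ x ∈ L, σ x = x) → σ • y = y

/-! ## Slice T: the eigensystem occurs in `J_H[ℓ] ⊗ k` -/

/-- The matrix of an additive endomorphism `X` of `J_H[ℓ]` in the coordinates `θ`, applied to a
vector with entries in `k`: `(A_X v)_i = ∑_j (θ (X (θ⁻¹ e_j)))_i v_j`. -/
def applyMat {J : Type*} [AddCommGroup J] {T : AddSubgroup J} {ℓ r : ℕ} {k : Type} [Field k]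
    (θ : ↥T ≃+ (Fin r → ZMod ℓ)) (X : ↥T → ↥T) (v : Fin r → k) : Fin r → k :=
  fun i => ∑ j, ((ZMod.cast (θ (X (θ.symm (Pi.single j 1))) i) : k)) * v j

/-- **T**: for a weight two eigenvector `G` with nebentypus `χ` (so `χ` is even) and eigenvalues
`b_q`, every prime `ℓ ≥ 5` and every residue map `φ`, the space `J_H[ℓ] ⊗ k` (`H = ker χ`,
in coordinates `θ`) contains a nonzero vector `v` with
`T^H_q v = φ(b_q χ(q)^s) v` (`q ∤ M ℓ`) and `ρ(d) v = φ(χ(d)^s') v`.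
Hypothesis `ℓ ∤ φ(M)`: then `ℓ ∤ |H|` and `NEB.EIG.H98.stmt_MonoH` is injective on `J_H[ℓ]`. -/
def Stmt_EigH (s s' : ℤ) : Prop :=
  ∀ (M : ℕ) [NeZero M] (χ : DirichletCharacter ℂ M) (G : CuspForm (Gamma1 M) 2) (b : ℕ → ℂ),
    2 ≤ M → B.IsEigenvec2 M χ G b → Int.HasNeb M χ 2 G →
      ∀ ℓ : ℕ, ℓ.Prime → 5 ≤ ℓ → ¬ ℓ ∣ Nat.totient M →
        ∀ (k : Type) [Field k] [CharP k ℓ] [IsAlgClosed k] (φ : integralClosure ℤ ℂ →+* k)
          (dd : DiamondData M M (kerH M χ)),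
          ∃ (r : ℕ) (θ : ↥(torsH M M (kerH M χ) ℓ) ≃+ (Fin r → ZMod ℓ)) (v : Fin r → k),
            v ≠ 0 ∧
            (∀ (q : ℕ) [NeZero q] (hβ : BetaOK M M q (kerH M χ)), q.Prime → ¬ q ∣ M * ℓ →
              ∀ (X : ↥(torsH M M (kerH M χ) ℓ) → ↥(torsH M M (kerH M χ) ℓ)),
                (∀ x, ((X x : ↥(torsH M M (kerH M χ) ℓ)) : JH M M (kerH M χ)) =
                  TH hβ (x : JH M M (kerH M χ))) →
                ∀ t : integralClosure ℤ ℂ,
                  (t : ℂ) = b q * ((χ (q : ZMod M) : ℂ)) ^ s →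
                  applyMat θ X v = φ t • v) ∧
            (∀ (d : (ZMod M)ˣ)
              (X : ↥(torsH M M (kerH M χ) ℓ) → ↥(torsH M M (kerH M χ) ℓ)),
                (∀ x, ((X x : ↥(torsH M M (kerH M χ) ℓ)) : JH M M (kerH M χ)) =
                  dd.ρ d • (x : JH M M (kerH M χ))) →
                ∀ t : integralClosure ℤ ℂ,
                  (t : ℂ) = ((χ (d : ZMod M) : ℂ)) ^ s' →
                  applyMat θ X v = φ t • v)

/-- **T for `H = ⊥`** (the form slice T proves, decision of helper1, owner of slice T):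
`Stmt_EigH` with `⊥` in place of `ker χ`, so on `J_1(M)[ℓ] ⊗ k`.  For `H = ⊥` the map
`NEB.EIG.H98.stmt_MonoH` is injective; `ℓ ∤ φ(M)` is used for the existence part of the torsion
dictionary.  TRUE exponents: `s = s' = -1`. -/
def Stmt_EigBot (s s' : ℤ) : Prop :=
  ∀ (M : ℕ) [NeZero M] (χ : DirichletCharacter ℂ M) (G : CuspForm (Gamma1 M) 2) (b : ℕ → ℂ),
    2 ≤ M → B.IsEigenvec2 M χ G b → Int.HasNeb M χ 2 G →
      ∀ ℓ : ℕ, ℓ.Prime → 5 ≤ ℓ → ¬ ℓ ∣ Nat.totient M →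
        ∀ (k : Type) [Field k] [CharP k ℓ] [IsAlgClosed k] (φ : integralClosure ℤ ℂ →+* k)
          (dd : DiamondData M M (⊥ : Subgroup (ZMod M)ˣ)),
          ∃ (r : ℕ) (θ : ↥(torsH M M (⊥ : Subgroup (ZMod M)ˣ) ℓ) ≃+ (Fin r → ZMod ℓ))
            (v : Fin r → k),
            v ≠ 0 ∧
            (∀ (q : ℕ) [NeZero q] (hβ : BetaOK M M q (⊥ : Subgroup (ZMod M)ˣ)), q.Prime →
              ¬ q ∣ M * ℓ →
              ∀ (X : ↥(torsH M M (⊥ : Subgroup (ZMod M)ˣ) ℓ) →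
                  ↥(torsH M M (⊥ : Subgroup (ZMod M)ˣ) ℓ)),
                (∀ x, ((X x : ↥(torsH M M (⊥ : Subgroup (ZMod M)ˣ) ℓ)) :
                    JH M M (⊥ : Subgroup (ZMod M)ˣ)) =
                  TH hβ (x : JH M M (⊥ : Subgroup (ZMod M)ˣ))) →
                ∀ t : integralClosure ℤ ℂ,
                  (t : ℂ) = b q * ((χ (q : ZMod M) : ℂ)) ^ s →
                  applyMat θ X v = φ t • v) ∧
            (∀ (d : (ZMod M)ˣ)
              (X : ↥(torsH M M (⊥ : Subgroup (ZMod M)ˣ) ℓ) →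
                  ↥(torsH M M (⊥ : Subgroup (ZMod M)ˣ) ℓ)),
                (∀ x, ((X x : ↥(torsH M M (⊥ : Subgroup (ZMod M)ˣ) ℓ)) :
                    JH M M (⊥ : Subgroup (ZMod M)ˣ)) =
                  dd.ρ d • (x : JH M M (⊥ : Subgroup (ZMod M)ˣ))) →
                ∀ t : integralClosure ℤ ℂ,
                  (t : ℂ) = ((χ (d : ZMod M) : ℂ)) ^ s' →
                  applyMat θ X v = φ t • v)

/-! ## The target -/

/-- `B.Stmt_TatePieceH` with the hypotheses the assembly of `Stmt_ResRep` can supply: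
`G` has nebentypus `χ`, `2 ≤ M`, `5 ≤ ℓ`, `ℓ² ∤ M`, `ℓ ∤ φ(M)`. -/
def Stmt_TatePieceH' : Prop :=
  ∀ (M : ℕ) [NeZero M] (χ : DirichletCharacter ℂ M) (G : CuspForm (Gamma1 M) 2) (b : ℕ → ℂ),
    2 ≤ M → B.IsEigenvec2 M χ G b → Int.HasNeb M χ 2 G →
      ∀ ℓ : ℕ, ℓ.Prime → 5 ≤ ℓ → ¬ ℓ ^ 2 ∣ M → ¬ ℓ ∣ Nat.totient M →
        ∀ (k : Type) [Field k] [CharP k ℓ] [IsAlgClosed k] (φ : integralClosure ℤ ℂ →+* k),
          ∃ (r : ℕ) (ρ : GQ →* GL (Fin r) k), 0 < r ∧ GaloisFactorsThroughFiniteLevel ρ ∧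
            ∀ p : ℕ, p.Prime → ¬ p ∣ M * ℓ →
              ∀ A : ValuationSubring Kbar, A.LiesOverPrime p →
                (∀ σ ∈ A.inertiaSubgroupIn ℚ, ρ σ = 1) ∧
                ∀ σ : GQ, A.IsFrobeniusAt σ p → ∀ β c : integralClosure ℤ ℂ,
                  (β : ℂ) = b p → (c : ℂ) = χ (p : ZMod M) * (p : ℂ) →
                    ((ρ σ : GL (Fin r) k) : Matrix (Fin r) (Fin r) k) *
                        ((ρ σ : GL (Fin r) k) : Matrix (Fin r) (Fin r) k) -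
                      φ β • ((ρ σ : GL (Fin r) k) : Matrix (Fin r) (Fin r) k) +
                      φ c • (1 : Matrix (Fin r) (Fin r) k) = 0

end Fermat.Agent.S48.B2
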