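import Mathlib.NumberTheory.ModularForms.CongruenceSubgroups
import Mathlib.LinearAlgebra.Matrix.FixedDetMatrices

/-!
# S48, mountain B2: a subgroup criterion in `SL(2, ℤ)` (helper1)

`eq_top_of_T_of_gamma0` : a subgroup `D ≤ SL(2, ℤ)` that contains `T`, contains `Γ(M)` and
satisfies `D · Γ₀(M) = SL(2, ℤ)` is the whole group.

Use: `D` = the elements of `SL(2, ℤ)` preserving the Gauss valuation of the function field of
`X(M)`; `T ∈ D` is clear on `q`-expansions, `D · Γ₀(M) = SL(2, ℤ)` is Igusa's theorem for `X₀(M)`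
(uniqueness of the extension of the Gauss valuation from `K(j)` to the field of `X₀(M)`).
Conclusion: the Gauss valuation of the field of every `X_H(M)` is unique (Igusa for `X_H`),
in every residue characteristic prime to `M`.
-/

set_option autoImplicit false

open scoped MatrixGroups
open Matrix

namespace Fermat.Agent.S48.B2.H01

/-- The lower unipotent matrix `[[1,0],[1,1]]`. -/
def lowerT : SL(2, ℤ) := ⟨!![1, 0; 1, 1], by simp [Matrix.det_fin_two]⟩

theorem lowerT_eq : lowerT = ModularGroup.T * ModularGroup.S * ModularGroup.T := by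
  apply Subtype.ext
  simp only [Matrix.SpecialLinearGroup.coe_mul, ModularGroup.coe_S, ModularGroup.coe_T, lowerT]
  ext i j
  fin_cases i <;> fin_cases j <;> simp [Matrix.mul_apply, Fin.sum_univ_two]

/-- A subgroup containing `T` and `lowerT` is everything. -/
theorem eq_top_of_T_lowerT (D : Subgroup SL(2, ℤ)) (hT : ModularGroup.T ∈ D)
    (hL : lowerT ∈ D) : D = ⊤ := by
  have hS : ModularGroup.S ∈ D := by
    have h : ModularGroup.S = ModularGroup.T⁻¹ * lowerT * ModularGroup.T⁻¹ := by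
      rw [lowerT_eq]; group
    rw [h]
    exact D.mul_mem (D.mul_mem (D.inv_mem hT) hL) (D.inv_mem hT)
  rw [eq_top_iff, ← SpecialLinearGroup.SL2Z_generators, Subgroup.closure_le]
  rintro x (rfl | rfl)
  · exact hS
  · exact hT

/-- **The criterion.**  A subgroup `D` of `SL(2, ℤ)` which contains `T` and `Γ(M)` and
satisfies `SL(2, ℤ) = D · Γ₀(M)` is the whole group. -/
theorem eq_top_of_T_of_gamma0 (M : ℕ) (D : Subgroup SL(2, ℤ)) (hT : ModularGroup.T ∈ D)
    (hΓ : CongruenceSubgroup.Gamma M ≤ D)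
    (hDB : ∀ g : SL(2, ℤ), ∃ d ∈ D, ∃ b ∈ CongruenceSubgroup.Gamma0 M, g = d * b) : D = ⊤ := by
  obtain ⟨d, hd, b, hb, hS⟩ := hDB ModularGroup.S
  set c : SL(2, ℤ) := b⁻¹ with hc
  have hcΓ : c ∈ CongruenceSubgroup.Gamma0 M := (CongruenceSubgroup.Gamma0 M).inv_mem hb
  have hdc : d = ModularGroup.S * c := by rw [hS, hc]; group
  have hc10 : (((c 1 0 : ℤ)) : ZMod M) = 0 := CongruenceSubgroup.Gamma0_mem.mp hcΓ
  have hdet : c 0 0 * c 1 1 - c 0 1 * c 1 0 = 1 := by
    have := c.2
    rwa [Matrix.det_fin_two] at this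
  set n : ℤ := -(c 1 1) ^ 2 with hn
  set Y : SL(2, ℤ) := d * ModularGroup.T ^ n * d⁻¹ with hY
  have hYD : Y ∈ D := D.mul_mem (D.mul_mem hd (D.zpow_mem hT n)) (D.inv_mem hd)
  -- `d T^n ≡ lowerT d` modulo `M`
  have hkey : Y⁻¹ * lowerT ∈ CongruenceSubgroup.Gamma M := by
    rw [CongruenceSubgroup.Gamma_mem', map_mul, map_inv, inv_mul_eq_one]
    have h1 : Matrix.SpecialLinearGroup.map (Int.castRingHom (ZMod M)) (d * ModularGroup.T ^ n)
        = Matrix.SpecialLinearGroup.map (Int.castRingHom (ZMod M)) (lowerT * d) := by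
      have hT' : ((ModularGroup.T ^ n : SL(2, ℤ)) : Matrix (Fin 2) (Fin 2) ℤ) = !![1, n; 0, 1] :=
        ModularGroup.coe_T_zpow n
      have hd' : (d : Matrix (Fin 2) (Fin 2) ℤ) =
          !![-(c 1 0), -(c 1 1); c 0 0, c 0 1] := by
        rw [hdc, Matrix.SpecialLinearGroup.coe_mul, ModularGroup.coe_S]
        ext i j
        fin_cases i <;> fin_cases j <;> simp [Matrix.mul_apply, Fin.sum_univ_two]
      have hA : ((d * ModularGroup.T ^ n : SL(2, ℤ)) : Matrix (Fin 2) (Fin 2) ℤ) =
          !![-(c 1 0), -(c 1 0) * n - c 1 1; c 0 0, c 0 0 * n + c 0 1] := by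
        rw [Matrix.SpecialLinearGroup.coe_mul, hT', hd']
        ext i j
        fin_cases i <;> fin_cases j
        · simp [Matrix.mul_apply, Fin.sum_univ_two]
        · simp [Matrix.mul_apply, Fin.sum_univ_two]; ring
        · simp [Matrix.mul_apply, Fin.sum_univ_two]
        · simp [Matrix.mul_apply, Fin.sum_univ_two]
      have hB : ((lowerT * d : SL(2, ℤ)) : Matrix (Fin 2) (Fin 2) ℤ) =
          !![-(c 1 0), -(c 1 1); -(c 1 0) + c 0 0, -(c 1 1) + c 0 1] := by
        rw [Matrix.SpecialLinearGroup.coe_mul, hd']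
        ext i j
        fin_cases i <;> fin_cases j <;> simp [lowerT, Matrix.mul_apply, Fin.sum_univ_two]
      have hδa : (((c 1 1 : ℤ)) : ZMod M) * ((c 0 0 : ℤ) : ZMod M) = 1 := by
        have h := congrArg (fun x : ℤ => (x : ZMod M)) hdet
        simp only [Int.cast_sub, Int.cast_mul, Int.cast_one, hc10, mul_zero, sub_zero] at h
        rw [mul_comm]; exact h
      have hδ2 : (((c 1 1 : ℤ)) : ZMod M) ^ 2 * ((c 0 0 : ℤ) : ZMod M) = ((c 1 1 : ℤ) : ZMod M) := by
        rw [pow_two, mul_assoc, hδa, mul_one]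
      apply Subtype.ext
      ext i j
      show (((d * ModularGroup.T ^ n : SL(2, ℤ)) : Matrix (Fin 2) (Fin 2) ℤ) i j : ZMod M)
        = (((lowerT * d : SL(2, ℤ)) : Matrix (Fin 2) (Fin 2) ℤ) i j : ZMod M)
      rw [hA, hB]
      fin_cases i <;> fin_cases j
      · simp
      · simp [hc10]
      · simp [hc10]
      · simp only [hn]
        simp
        linear_combination hδ2
    rw [map_mul, map_mul, map_inv]
    rw [map_mul] at h1
    rw [h1, map_mul]
    group
  have hL : lowerT ∈ D := by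
    have : lowerT = Y * (Y⁻¹ * lowerT) := by group
    rw [this]
    exact D.mul_mem hYD (hΓ hkey)
  exact eq_top_of_T_lowerT D hT hL

end Fermat.Agent.S48.B2.H01
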