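import Fermat.Agent.S48.B2.Defs
import Fermat.Agent.S17.OpenStab
import Fermat.Agent.NEB.H94_FF
import Fermat.Agent.NEB.H84_Fix

/-!
# S48, mountain B2, slice G (helper19): `Stmt_GALH`

Every point of `J_H = Pic⁰(F_H)` is fixed by the Galois group of a number field.

`S17.exists_field_fixing_class` is generic in the `ℚ`-model `F₀ ⊂ ℚ((q))`; the finiteness of the
zeros of a function of `F_H · ℚ̄` follows from the principal divisors of the function field
`F_H · ℚ̄` (`NEB.H94.isFF_FHbar`, with `NEB.H84.stmt_FH_gal`).  The Galois action on `J_H` is the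
prelude's coefficientwise action (`arithmeticGalois (FHQ M c H)`), by definition.
-/

set_option autoImplicit false
set_option linter.style.haveILetI false

noncomputable section

namespace Fermat.Agent.S48.B2.H19

open AlgebraicCurve ModularCurve
open Fermat.Agent.NEB Fermat.Agent.NEB.JH

/-- Finiteness of the zeros of a function of `F_H · ℚ̄`. -/
theorem zerosFinite_FHQ (M c : ℕ) (H : Subgroup (ZMod c)ˣ) (hc : 2 ≤ c) (hcM : c ∣ M)
    (hM : M ≠ 0) : Fermat.Agent.S17.ZerosFinite (FHQ M c H) := by
  haveI : NeZero M := ⟨hM⟩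
  have hFF : Fermat.Agent.RED.IsFF Kbar ↥(FHbar M c H) :=
    Fermat.Agent.NEB.H94.isFF_FHbar M c H hc hcM (Fermat.Agent.NEB.H84.stmt_FH_gal M c H)
  haveI : HasPrincipalDivisors Kbar ↥(FHbar M c H) := Fermat.Agent.NEB.H14.hasPD hFF
  intro x hx
  obtain ⟨D, hD, -⟩ := HasPrincipalDivisors.exists_divisor (K := Kbar) x hx
  refine D.support.finite_toSet.subset fun v hv => ?_
  have h0 : 0 < v.ord x := hv
  rw [Finset.mem_coe, Finsupp.mem_support_iff, hD v]
  exact h0.ne'

/-- **Slice G**: every point of `J_H` is fixed by the Galois group of a number field. -/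
theorem stmt_GALH : Stmt_GALH := by
  intro M c H hc hcM hM y
  obtain ⟨F, hF, h⟩ :=
    Fermat.Agent.S17.exists_field_fixing_class (FHQ M c H) (zerosFinite_FHQ M c H hc hcM hM) y
  exact ⟨F, hF, fun σ hσ => h σ ((IntermediateField.mem_fixingSubgroup_iff F σ).2 hσ)⟩

end Fermat.Agent.S48.B2.H19
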