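import Fermat.Agent.S48.B2.H55_AsmCore

/-!
# S48, B2 assembly (helper55): `Stmt_TatePieceH'` from the slices

`asm s s' (h : s' = 2 * s + 1) : Stmt_EigH s s' → Stmt_TorsUnramH → Stmt_TorsESH →
Stmt_GALH → B.Stmt_DirCharL → Stmt_TatePieceH'`.

`asm_bot`: the same with `Stmt_EigBot s s'` (`H = ⊥`, the form slice T proves).

The proof is `asm_core` (`H55_AsmCore.lean`), which is stated with local hypotheses and does not
depend on the exact form of the statements of the slices.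
-/

set_option autoImplicit false

noncomputable section

namespace Fermat.Agent.S48.B2.H55

open AlgebraicCurve ModularCurve CongruenceSubgroup
open Fermat.Agent.NEB Fermat.Agent.NEB.JH
open Fermat.Agent.S48.B2
open scoped MatrixGroups

theorem coprime_six_of_prime {ℓ : ℕ} (hℓ : ℓ.Prime) (h5 : 5 ≤ ℓ) : Nat.Coprime ℓ 6 := by
  rw [Nat.Prime.coprime_iff_not_dvd hℓ]
  intro hd
  have hle : ℓ ≤ 6 := Nat.le_of_dvd (by norm_num) hd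
  have h56 : ℓ = 5 ∨ ℓ = 6 := by omega
  rcases h56 with rfl | rfl
  · norm_num at hd
  · norm_num at hℓ

/-- **B2 assembly.** -/
theorem asm (s s' : ℤ) (h : s' = 2 * s + 1) (hEig : Stmt_EigH s s')
    (hUnr : Stmt_TorsUnramH) (hES : Stmt_TorsESH) (hGal : Stmt_GALH)
    (hDir : B.Stmt_DirCharL) : Stmt_TatePieceH' := by
  intro M _ χ G b hM2 hG hneb ℓ hℓ h5 hsq htot k _ _ _ φ
  have hSQ : ∀ r : ℕ, r.Prime → r ∣ ℓ → ¬ r ^ 2 ∣ M := by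
    intro r hr hrℓ
    have : r = ℓ := (Nat.prime_dvd_prime_iff_eq hr hℓ).1 hrℓ
    rw [this]
    exact hsq
  have hM0 : M ≠ 0 := NeZero.ne M
  have hcop6 : Nat.Coprime ℓ 6 := coprime_six_of_prime hℓ h5
  set dd : DiamondData M M (kerH M χ) := diamondData M M (kerH M χ) hM2 dvd_rfl with hdd
  obtain ⟨r, θ, v, hv, hvT, hvD⟩ := hEig M χ G b hM2 hG hneb ℓ hℓ h5 htot k φ dd
  obtain ⟨θχ, hθfin, hθ⟩ := hDir M χ k φ
  have hpM_of : ∀ p : ℕ, ¬ p ∣ M * ℓ → ¬ p ∣ M := fun p h1 h2 => h1 (dvd_mul_of_dvd_left h2 ℓ)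
  have hpℓ_of : ∀ p : ℕ, ¬ p ∣ M * ℓ → ¬ p ∣ ℓ := fun p h1 h2 => h1 (dvd_mul_of_dvd_right h2 M)
  exact asm_core s s' h M hM2 (kerH M χ) χ b ℓ hℓ k φ dd r θ v hv
    (fun q _ hβ hq hqM X hX t ht => hvT q hβ hq hqM X hX t ht)
    (fun d X hX t ht => hvD d X hX t ht)
    (fun p hp hpM P hP σ hσ x hx =>
      hUnr M M (kerH M χ) hM2 dvd_rfl hM0 ℓ p hp (hpM_of p hpM) (hpℓ_of p hpM) hcop6 hSQ P hP σ hσ
        x hx)
    (fun p _ hp hpM hβ qu hqu A hA σ hσ x hx =>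
      hES M M (kerH M χ) hM2 dvd_rfl hM0 ℓ p hp (hpM_of p hpM) (hpℓ_of p hpM) hcop6 hSQ hβ dd qu
        hqu A hA σ hσ x hx)
    (fun y => hGal M M (kerH M χ) hM2 dvd_rfl hM0 y)
    θχ hθfin hθ

/-- **B2 assembly, `H = ⊥`** (the form used by the final wiring). -/
theorem asm_bot (s s' : ℤ) (h : s' = 2 * s + 1) (hEig : Stmt_EigBot s s')
    (hUnr : Stmt_TorsUnramH) (hES : Stmt_TorsESH) (hGal : Stmt_GALH)
    (hDir : B.Stmt_DirCharL) : Stmt_TatePieceH' := by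
  intro M _ χ G b hM2 hG hneb ℓ hℓ h5 hsq htot k _ _ _ φ
  have hSQ : ∀ r : ℕ, r.Prime → r ∣ ℓ → ¬ r ^ 2 ∣ M := by
    intro r hr hrℓ
    have : r = ℓ := (Nat.prime_dvd_prime_iff_eq hr hℓ).1 hrℓ
    rw [this]
    exact hsq
  have hM0 : M ≠ 0 := NeZero.ne M
  have hcop6 : Nat.Coprime ℓ 6 := coprime_six_of_prime hℓ h5
  set dd : DiamondData M M (⊥ : Subgroup (ZMod M)ˣ) :=
    diamondData M M (⊥ : Subgroup (ZMod M)ˣ) hM2 dvd_rfl with hdd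
  obtain ⟨r, θ, v, hv, hvT, hvD⟩ := hEig M χ G b hM2 hG hneb ℓ hℓ h5 htot k φ dd
  obtain ⟨θχ, hθfin, hθ⟩ := hDir M χ k φ
  have hpM_of : ∀ p : ℕ, ¬ p ∣ M * ℓ → ¬ p ∣ M := fun p h1 h2 => h1 (dvd_mul_of_dvd_left h2 ℓ)
  have hpℓ_of : ∀ p : ℕ, ¬ p ∣ M * ℓ → ¬ p ∣ ℓ := fun p h1 h2 => h1 (dvd_mul_of_dvd_right h2 M)
  exact asm_core s s' h M hM2 (⊥ : Subgroup (ZMod M)ˣ) χ b ℓ hℓ k φ dd r θ v hv
    (fun q _ hβ hq hqM X hX t ht => hvT q hβ hq hqM X hX t ht)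
    (fun d X hX t ht => hvD d X hX t ht)
    (fun p hp hpM P hP σ hσ x hx =>
      hUnr M M (⊥ : Subgroup (ZMod M)ˣ) hM2 dvd_rfl hM0 ℓ p hp (hpM_of p hpM) (hpℓ_of p hpM)
        hcop6 hSQ P hP σ hσ x hx)
    (fun p _ hp hpM hβ qu hqu A hA σ hσ x hx =>
      hES M M (⊥ : Subgroup (ZMod M)ˣ) hM2 dvd_rfl hM0 ℓ p hp (hpM_of p hpM) (hpℓ_of p hpM)
        hcop6 hSQ hβ dd qu hqu A hA σ hσ x hx)
    (fun y => hGal M M (⊥ : Subgroup (ZMod M)ˣ) hM2 dvd_rfl hM0 y)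
    θχ hθfin hθ

end Fermat.Agent.S48.B2.H55
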