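import Fermat.Agent.S48.B2.H55_AsmGL
import Fermat.Agent.S48.Int.H55_IntCoeff

/-!
# S48, B2 assembly, part 4 (helper55): the core of the assembly, with local hypotheses

`asm_core` (for ANY subgroup `H ≤ (ℤ/M)ˣ`): from an eigenvector in `J_H[ℓ] ⊗ k`, trivial inertia
action, the Eichler–Shimura
relation with the diamond operator, continuity and the Galois character of `χ`, the
representation on the common eigenspace, twisted by the character, has all the properties asked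
in `Stmt_TatePieceH'`.
-/

set_option autoImplicit false

noncomputable section

namespace Fermat.Agent.S48.B2.H55

open AlgebraicCurve ModularCurve CongruenceSubgroup Module
open Fermat.Agent.NEB Fermat.Agent.NEB.JH
open Fermat.Agent.S48.B2
open scoped MatrixGroups

/-- The Hecke conditions. -/
structure HeckeIdx (M : ℕ) (H : Subgroup (ZMod M)ˣ) (χ : DirichletCharacter ℂ M) (b : ℕ → ℂ)
    (s : ℤ) (ℓ : ℕ) where
  /-- the prime -/
  q : ℕ
  /-- it is not zero -/
  nz : NeZero q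
  /-- the degeneracy map exists -/
  hβ : @BetaOK M M q nz H
  /-- it is a prime -/
  hq : q.Prime
  /-- prime to the level and to `ℓ` -/
  hqM : ¬ q ∣ M * ℓ
  /-- the eigenvalue -/
  t : integralClosure ℤ ℂ
  /-- its value -/
  ht : (t : ℂ) = b q * (χ (q : ZMod M) : ℂ) ^ s

/-- The diamond conditions. -/
structure DiamIdx (M : ℕ) (χ : DirichletCharacter ℂ M) (s' : ℤ) where
  /-- the unit -/
  d : (ZMod M)ˣ
  /-- the eigenvalue -/
  t : integralClosure ℤ ℂ
  /-- its value -/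
  ht : (t : ℂ) = (χ (d : ZMod M) : ℂ) ^ s'

section Fam

variable {M : ℕ} {H : Subgroup (ZMod M)ˣ} {χ : DirichletCharacter ℂ M} {b : ℕ → ℂ} {s s' : ℤ}
  {ℓ r : ℕ}

/-- The family of matrices. -/
def famA (k : Type) [Field k] [CharP k ℓ] (θ : ↥(torsH M M H ℓ) ≃+ (Fin r → ZMod ℓ))
    (dd : DiamondData M M H) :
    HeckeIdx M H χ b s ℓ ⊕ DiamIdx M χ s' → Matrix (Fin r) (Fin r) k
  | Sum.inl i => matOf k θ (resT ℓ (@TH M M i.q i.nz H i.hβ))
  | Sum.inr j => matOf k θ (resT ℓ (diamond dd j.d))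

/-- The family of eigenvalues. -/
def famE {k : Type} [Field k] (φ : integralClosure ℤ ℂ →+* k) :
    HeckeIdx M H χ b s ℓ ⊕ DiamIdx M χ s' → k
  | Sum.inl i => φ i.t
  | Sum.inr j => φ j.t

end Fam

theorem char_unit_ne_zero {M : ℕ} (χ : DirichletCharacter ℂ M) (u : (ZMod M)ˣ) :
    χ (u : ZMod M) ≠ 0 := by
  have h : IsUnit (χ (u : ZMod M)) := (u.isUnit).map χ
  exact h.ne_zero

theorem char_unit_inv {M : ℕ} (χ : DirichletCharacter ℂ M) (u : (ZMod M)ˣ) :
    (χ (u : ZMod M))⁻¹ = χ ((u⁻¹ : (ZMod M)ˣ) : ZMod M) := by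
  have h : χ (u : ZMod M) * χ ((u⁻¹ : (ZMod M)ˣ) : ZMod M) = 1 := by
    rw [← map_mul, ← Units.val_mul, mul_inv_cancel, Units.val_one, map_one]
  exact inv_eq_of_mul_eq_one_right h

theorem char_unit_zpow {M : ℕ} (χ : DirichletCharacter ℂ M) (u : (ZMod M)ˣ) (e : ℤ) :
    χ ((u ^ e : (ZMod M)ˣ) : ZMod M) = (χ (u : ZMod M)) ^ e := by
  have h := map_zpow χ.toUnitHom u e
  have h2 := congrArg (fun v : ℂˣ => (v : ℂ)) h
  simp only [MulChar.coe_toUnitHom, Units.val_zpow_eq_zpow_val] at h2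
  exact h2

/-- The value of `χ` at a unit, as a unit of `ℤ̄`. -/
def charUnit {M : ℕ} [NeZero M] (χ : DirichletCharacter ℂ M) (u : (ZMod M)ˣ) :
    (integralClosure ℤ ℂ)ˣ :=
  intUnit (χ (u : ZMod M)) (Fermat.Agent.S48.Int.H55.isIntegral_charVal χ _)
    (by
      rw [char_unit_inv]
      exact Fermat.Agent.S48.Int.H55.isIntegral_charVal χ _)
    (char_unit_ne_zero χ u)

theorem coe_charUnit {M : ℕ} [NeZero M] (χ : DirichletCharacter ℂ M) (u : (ZMod M)ˣ) :
    (((charUnit χ u : (integralClosure ℤ ℂ)ˣ) : integralClosure ℤ ℂ) : ℂ) = χ (u : ZMod M) :=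
  rfl

/-- **Core of the assembly.** -/
theorem asm_core (s s' : ℤ) (h : s' = 2 * s + 1)
    (M : ℕ) [NeZero M] (hM2 : 2 ≤ M) (H : Subgroup (ZMod M)ˣ) (χ : DirichletCharacter ℂ M)
    (b : ℕ → ℂ)
    (ℓ : ℕ) (hℓ : ℓ.Prime) (k : Type) [Field k] [CharP k ℓ] (φ : integralClosure ℤ ℂ →+* k)
    (dd : DiamondData M M H)
    (r : ℕ) (θ : ↥(torsH M M H ℓ) ≃+ (Fin r → ZMod ℓ)) (v : Fin r → k) (hv : v ≠ 0)
    (hvT : ∀ (q : ℕ) [NeZero q] (hβ : BetaOK M M q H), q.Prime → ¬ q ∣ M * ℓ →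
      ∀ (X : ↥(torsH M M H ℓ) → ↥(torsH M M H ℓ)),
        (∀ x, ((X x : ↥(torsH M M H ℓ)) : JH M M H) =
          TH hβ (x : JH M M H)) →
        ∀ t : integralClosure ℤ ℂ, (t : ℂ) = b q * ((χ (q : ZMod M) : ℂ)) ^ s →
          applyMat θ X v = φ t • v)
    (hvD : ∀ (d : (ZMod M)ˣ)
      (X : ↥(torsH M M H ℓ) → ↥(torsH M M H ℓ)),
        (∀ x, ((X x : ↥(torsH M M H ℓ)) : JH M M H) =
          dd.ρ d • (x : JH M M H)) →
        ∀ t : integralClosure ℤ ℂ, (t : ℂ) = ((χ (d : ZMod M) : ℂ)) ^ s' →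
          applyMat θ X v = φ t • v)
    (hUnr : ∀ p : ℕ, p.Prime → ¬ p ∣ M * ℓ → ∀ P : ValuationSubring Kbar, P.LiesOverPrime p →
      ∀ σ ∈ P.inertiaSubgroupIn ℚ, ∀ x : JH M M H, ℓ • x = 0 → σ • x = x)
    (hES : ∀ (p : ℕ) [NeZero p], p.Prime → ¬ p ∣ M * ℓ →
      ∀ (hβ : BetaOK M M p H) (qu : (ZMod M)ˣ),
        ((qu : (ZMod M)ˣ) : ZMod M) = (p : ZMod M) →
        ∀ A : ValuationSubring Kbar, A.LiesOverPrime p →
          ∀ σ : GQ, A.IsFrobeniusAt σ p → ∀ x : JH M M H, ℓ • x = 0 →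
            dd.ρ qu • (σ • σ • x) - TH hβ (σ • x) + p • x = 0)
    (hGal : ∀ y : JH M M H, ∃ L : IntermediateField ℚ Kbar, FiniteDimensional ℚ L ∧
      ∀ σ : GQ, (∀ x ∈ L, σ x = x) → σ • y = y)
    (θχ : GQ →* kˣ) (hθfin : GaloisFactorsThroughFiniteLevel θχ)
    (hθ : ∀ p : ℕ, p.Prime → ¬ p ∣ M → ∀ A : ValuationSubring Kbar, A.LiesOverPrime p →
      (∀ σ ∈ A.inertiaSubgroupIn ℚ, θχ σ = 1) ∧
      ∀ σ : GQ, A.IsFrobeniusAt σ p → ∀ e : integralClosure ℤ ℂ,
        (e : ℂ) = χ (p : ZMod M) → ((θχ σ : kˣ) : k) = φ e) :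
    ∃ (r' : ℕ) (ρ : GQ →* GL (Fin r') k), 0 < r' ∧ GaloisFactorsThroughFiniteLevel ρ ∧
      ∀ p : ℕ, p.Prime → ¬ p ∣ M * ℓ → ∀ A : ValuationSubring Kbar, A.LiesOverPrime p →
        (∀ σ ∈ A.inertiaSubgroupIn ℚ, ρ σ = 1) ∧
        ∀ σ : GQ, A.IsFrobeniusAt σ p → ∀ β c : integralClosure ℤ ℂ,
          (β : ℂ) = b p → (c : ℂ) = χ (p : ZMod M) * (p : ℂ) →
            ((ρ σ : GL (Fin r') k) : Matrix (Fin r') (Fin r') k) *
                ((ρ σ : GL (Fin r') k) : Matrix (Fin r') (Fin r') k) -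
              φ β • ((ρ σ : GL (Fin r') k) : Matrix (Fin r') (Fin r') k) +
              φ c • (1 : Matrix (Fin r') (Fin r') k) = 0 := by
  classical
  haveI : NeZero ℓ := ⟨hℓ.ne_zero⟩
  have hFF : RED.IsFF Kbar ↥(FHbar M M H) := isFF_JH M M H hM2 dvd_rfl
  -- the family and the Galois matrices
  set A : HeckeIdx M H χ b s ℓ ⊕ DiamIdx M χ s' → Matrix (Fin r) (Fin r) k := famA k θ dd with hA
  set a : HeckeIdx M H χ b s ℓ ⊕ DiamIdx M χ s' → k := famE φ with ha
  set g : GQ →* Matrix (Fin r) (Fin r) k := galMatHom k θ with hgdef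
  have hg : ∀ σ i, A i * g σ = g σ * A i := by
    intro σ i
    rcases i with i | j
    · haveI : NeZero i.q := i.nz
      haveI : NeZero (M * i.q) := neZero_mul M i.q
      have hFF' : RED.IsFF Kbar ↥(FHbar (M * i.q) M H) :=
        isFF_JH (M * i.q) M H hM2 (dvd_mul_right M i.q)
      show matOf k θ (resT ℓ (TH i.hβ)) * matOf k θ (resT ℓ (galHom M M H σ)) =
        matOf k θ (resT ℓ (galHom M M H σ)) * matOf k θ (resT ℓ (TH i.hβ))
      rw [← matOf_comp, ← matOf_comp]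
      congr 1
      apply AddMonoidHom.ext
      intro x
      apply Subtype.ext
      exact TH_galois hFF hFF' i.hβ σ (x : JH M M H)
    · show matOf k θ (resT ℓ (diamond dd j.d)) * matOf k θ (resT ℓ (galHom M M H σ)) =
        matOf k θ (resT ℓ (galHom M M H σ)) * matOf k θ (resT ℓ (diamond dd j.d))
      rw [← matOf_comp, ← matOf_comp]
      congr 1
      apply AddMonoidHom.ext
      intro x
      apply Subtype.ext
      exact diamond_galois hFF dd j.d σ (x : JH M M H)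
  -- the twist
  set η : GQ →* kˣ := (zpowGroupHom (s' - s)).comp θχ with hη
  have hηapp : ∀ σ, ((η σ : kˣ) : k) = ((θχ σ : kˣ) : k) ^ (s' - s) := by
    intro σ
    rw [hη, MonoidHom.comp_apply, zpowGroupHom_apply, Units.val_zpow_eq_zpow_val]
  -- the eigenvector
  have hvW : v ∈ eigSpace A a := by
    intro i
    rcases i with i | j
    · haveI : NeZero i.q := i.nz
      have h1 := hvT i.q i.hβ i.hq i.hqM (⇑(resT ℓ (TH i.hβ))) (fun x => rfl) i.t i.ht
      rw [applyMat_eq_mulVec] at h1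
      exact h1
    · have h1 := hvD j.d (⇑(resT ℓ (diamond dd j.d))) (fun x => rfl) j.t j.ht
      rw [applyMat_eq_mulVec] at h1
      exact h1
  set R : GQ →* Module.End k (eigSpace A a) := rhoEnd A a g hg η with hR
  have hpos : 0 < Module.finrank k (eigSpace A a) := by
    rw [Module.finrank_pos_iff]
    exact ⟨⟨⟨v, hvW⟩, 0, fun h0 => hv (congrArg Subtype.val h0)⟩⟩
  refine ⟨Module.finrank k (eigSpace A a), toGL (Module.finBasis k (eigSpace A a)) R, hpos,
    ?_, ?_⟩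
  · -- finite level
    haveI : Finite ↥(torsH M M H ℓ) := Finite.of_equiv _ θ.symm.toEquiv
    choose L hLfin hL using fun x : ↥(torsH M M H ℓ) => hGal (x : JH M M H)
    obtain ⟨Lθ, hLθfin, hLθ⟩ := hθfin
    haveI : ∀ x, FiniteDimensional ℚ ↥(L x) := hLfin
    haveI : FiniteDimensional ℚ ↥(⨆ x, L x) := IntermediateField.finiteDimensional_iSup_of_finite
    haveI : FiniteDimensional ℚ ↥Lθ := hLθfin
    refine ⟨(⨆ x, L x) ⊔ Lθ, IntermediateField.finiteDimensional_sup _ _, ?_⟩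
    intro σ hσ
    have h1 : g σ = 1 := by
      refine galMatHom_eq_one θ σ (fun x hx => ?_)
      refine hL ⟨x, hx⟩ σ (fun y hy => hσ y ?_)
      exact (le_sup_left : (⨆ x, L x) ≤ (⨆ x, L x) ⊔ Lθ) ((le_iSup L ⟨x, hx⟩) hy)
    have h2 : θχ σ = 1 := hLθ σ (fun y hy => hσ y
      ((le_sup_right : Lθ ≤ (⨆ x, L x) ⊔ Lθ) hy))
    have h3 : η σ = 1 := by
      rw [hη, MonoidHom.comp_apply, h2, map_one]
    exact toGL_eq_one _ R σ (rhoEnd_eq_one A a g hg η σ h1 h3)
  · intro p hp hpM P hP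
    have hpM' : ¬ p ∣ M := fun h' => hpM (dvd_mul_of_dvd_left h' ℓ)
    obtain ⟨hθ1, hθ2⟩ := hθ p hp hpM' P hP
    refine ⟨?_, ?_⟩
    · intro σ hσ
      have h1 : g σ = 1 := galMatHom_eq_one θ σ (fun x hx => hUnr p hp hpM P hP σ hσ x hx)
      have h3 : η σ = 1 := by
        rw [hη, MonoidHom.comp_apply, hθ1 σ hσ, map_one]
      exact toGL_eq_one _ R σ (rhoEnd_eq_one A a g hg η σ h1 h3)
    · intro σ hσ β c hβ hc
      haveI : NeZero p := ⟨hp.ne_zero⟩
      have hcop : p.Coprime M := (Nat.Prime.coprime_iff_not_dvd hp).2 hpM'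
      set qu : (ZMod M)ˣ := ZMod.unitOfCoprime p hcop with hqu
      have hquv : ((qu : (ZMod M)ˣ) : ZMod M) = (p : ZMod M) := ZMod.coe_unitOfCoprime p hcop
      set uχ : (integralClosure ℤ ℂ)ˣ := charUnit χ qu with huχ
      have huχv : (((uχ : (integralClosure ℤ ℂ)ˣ) : integralClosure ℤ ℂ) : ℂ) =
          χ (p : ZMod M) := by
        rw [huχ, coe_charUnit, hquv]
      have hβOK : BetaOK M M p H := betaOK' M M p H hM2 dvd_rfl
      -- the indices
      let i : HeckeIdx M H χ b s ℓ :=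
        { q := p
          nz := ⟨hp.ne_zero⟩
          hβ := hβOK
          hq := hp
          hqM := hpM
          t := β * ((uχ ^ s : (integralClosure ℤ ℂ)ˣ) : integralClosure ℤ ℂ)
          ht := by
            rw [Subalgebra.coe_mul, coe_unit_zpow, huχv, hβ] }
      let j : DiamIdx M χ s' :=
        { d := qu
          t := ((uχ ^ s' : (integralClosure ℤ ℂ)ˣ) : integralClosure ℤ ℂ)
          ht := by
            rw [coe_unit_zpow, huχv, hquv] }
      -- the relation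
      have hrelT : (resT ℓ (diamond dd qu)).comp
            ((resT ℓ (galHom M M H σ)).comp (resT ℓ (galHom M M H σ))) -
          (resT ℓ (TH hβOK)).comp (resT ℓ (galHom M M H σ)) +
          p • AddMonoidHom.id _ = 0 := by
        apply AddMonoidHom.ext
        intro x
        apply Subtype.ext
        exact hES p hp hpM hβOK qu hquv P hP σ hσ (x : JH M M H) x.2
      have hrel : A (Sum.inr j) * (g σ * g σ) - A (Sum.inl i) * g σ +
          (p : k) • (1 : Matrix (Fin r) (Fin r) k) = 0 := by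
        have h1 := congrArg (matOf k θ) hrelT
        rw [matOf_add, matOf_sub, matOf_comp, matOf_comp, matOf_comp, matOf_nsmul, matOf_id,
          matOf_zero] at h1
        exact h1
      -- the values
      have hy : ((θχ σ : kˣ) : k) = φ ((uχ : (integralClosure ℤ ℂ)ˣ) : integralClosure ℤ ℂ) :=
        hθ2 σ hσ _ huχv
      have hy0 : ((θχ σ : kˣ) : k) ≠ 0 := (θχ σ).ne_zero
      have haj : a (Sum.inr j) = ((θχ σ : kˣ) : k) ^ s' := by
        show φ ((uχ ^ s' : (integralClosure ℤ ℂ)ˣ) : integralClosure ℤ ℂ) = _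
        rw [map_unit_zpow, ← hy]
      have hai : a (Sum.inl i) = φ β * ((θχ σ : kˣ) : k) ^ s := by
        show φ (β * ((uχ ^ s : (integralClosure ℤ ℂ)ˣ) : integralClosure ℤ ℂ)) = _
        rw [map_mul, map_unit_zpow, ← hy]
      have haj0 : a (Sum.inr j) ≠ 0 := by
        rw [haj]
        exact zpow_ne_zero _ hy0
      have h1 : ((η σ : kˣ) : k) * a (Sum.inl i) = φ β * a (Sum.inr j) := by
        rw [hηapp, hai, haj, zpow_sub₀ hy0]
        field_simp
      have hcval : c = ((uχ : (integralClosure ℤ ℂ)ˣ) : integralClosure ℤ ℂ) *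
          ((p : ℕ) : integralClosure ℤ ℂ) := by
        apply Subtype.ext
        rw [hc, Subalgebra.coe_mul, huχv]
        simp
      have h2 : ((η σ : kˣ) : k) * ((η σ : kˣ) : k) * (p : k) = φ c * a (Sum.inr j) := by
        rw [hηapp, haj, hcval, map_mul, map_natCast, ← hy]
        have e1 : s' - s = s + 1 := by omega
        rw [e1, h, zpow_add₀ hy0, zpow_one, zpow_add₀ hy0, zpow_one, two_mul, zpow_add₀ hy0]
        ring
      have hquad := rhoEnd_quadratic_diam A a g hg η σ (Sum.inl i) (Sum.inr j) (p : k) hrel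
        (φ β) (φ c) haj0 h1 h2
      exact toGL_quadratic _ R σ (φ β) (φ c) hquad

end Fermat.Agent.S48.B2.H55
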