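import Fermat.Agent.S48.B2.H55_AsmRep

/-!
# S48, B2 assembly, part 3 (helper55): from endomorphisms of a finite dimensional space to `GL`

* `toGL bV R`: the matrices of a representation `R : G →* End k V` in a basis;
  `toGL_eq_one`, `toGL_quadratic`.
* `unitPow`, `charUnit`: the values of a Dirichlet character at units as units of `ℤ̄`.
-/

set_option autoImplicit false

noncomputable section

namespace Fermat.Agent.S48.B2.H55

open Module
open scoped MatrixGroups

section ToGLSec

variable {k : Type} [Field k] {G : Type*} [Group G] {V : Type*} [AddCommGroup V] [Module k V]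
  {n : ℕ}

/-- The matrices of a representation in a basis. -/
def toGL (bV : Basis (Fin n) k V) (R : G →* Module.End k V) : G →* GL (Fin n) k :=
  (((LinearMap.toMatrixAlgEquiv bV : Module.End k V ≃ₐ[k] Matrix (Fin n) (Fin n) k) :
    Module.End k V →* Matrix (Fin n) (Fin n) k).comp R).toHomUnits

theorem toGL_coe (bV : Basis (Fin n) k V) (R : G →* Module.End k V) (σ : G) :
    ((toGL bV R σ : GL (Fin n) k) : Matrix (Fin n) (Fin n) k) =
      LinearMap.toMatrixAlgEquiv bV (R σ) := rfl

theorem toGL_eq_one (bV : Basis (Fin n) k V) (R : G →* Module.End k V) (σ : G)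
    (h : R σ = 1) : toGL bV R σ = 1 := by
  apply Units.ext
  rw [toGL_coe, h, map_one]
  rfl

theorem toGL_quadratic (bV : Basis (Fin n) k V) (R : G →* Module.End k V) (σ : G) (β γ : k)
    (h : R σ * R σ - β • R σ + γ • (1 : Module.End k V) = 0) :
    ((toGL bV R σ : GL (Fin n) k) : Matrix (Fin n) (Fin n) k) *
        ((toGL bV R σ : GL (Fin n) k) : Matrix (Fin n) (Fin n) k) -
      β • ((toGL bV R σ : GL (Fin n) k) : Matrix (Fin n) (Fin n) k) +
      γ • (1 : Matrix (Fin n) (Fin n) k) = 0 := by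
  have h1 := congrArg (LinearMap.toMatrixAlgEquiv bV) h
  rw [map_add, map_sub, map_mul, map_smul, map_smul, map_one, map_zero] at h1
  rw [toGL_coe]
  exact h1

end ToGLSec

section CharUnit

/-- A unit of `ℤ̄` from a complex number which is integral together with its inverse. -/
def intUnit (x : ℂ) (hx : IsIntegral ℤ x) (hx' : IsIntegral ℤ x⁻¹) (h0 : x ≠ 0) :
    (integralClosure ℤ ℂ)ˣ where
  val := ⟨x, hx⟩
  inv := ⟨x⁻¹, hx'⟩
  val_inv := Subtype.ext (mul_inv_cancel₀ h0)
  inv_val := Subtype.ext (inv_mul_cancel₀ h0)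

theorem coe_intUnit (x : ℂ) (hx : IsIntegral ℤ x) (hx' : IsIntegral ℤ x⁻¹) (h0 : x ≠ 0) :
    (((intUnit x hx hx' h0 : (integralClosure ℤ ℂ)ˣ) : integralClosure ℤ ℂ) : ℂ) = x := rfl

/-- Integer powers of units of `ℤ̄`, in `ℂ`. -/
theorem coe_unit_zpow (u : (integralClosure ℤ ℂ)ˣ) (s : ℤ) :
    (((u ^ s : (integralClosure ℤ ℂ)ˣ) : integralClosure ℤ ℂ) : ℂ) =
      (((u : integralClosure ℤ ℂ) : ℂ)) ^ s := by
  have h := map_zpow (Units.map ((integralClosure ℤ ℂ).val : integralClosure ℤ ℂ →* ℂ)) u s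
  have h2 := congrArg (fun v : ℂˣ => (v : ℂ)) h
  simp only [Units.coe_map, Units.val_zpow_eq_zpow_val] at h2
  exact h2

/-- Integer powers of units of `ℤ̄`, under a ring homomorphism. -/
theorem map_unit_zpow {k : Type} [Field k] (φ : integralClosure ℤ ℂ →+* k)
    (u : (integralClosure ℤ ℂ)ˣ) (s : ℤ) :
    φ ((u ^ s : (integralClosure ℤ ℂ)ˣ) : integralClosure ℤ ℂ) =
      (φ (u : integralClosure ℤ ℂ)) ^ s := by
  have h := map_zpow (Units.map (φ : integralClosure ℤ ℂ →* k)) u s
  have h2 := congrArg (fun v : kˣ => (v : k)) h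
  simp only [Units.coe_map, Units.val_zpow_eq_zpow_val] at h2
  exact h2

end CharUnit

end Fermat.Agent.S48.B2.H55
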