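import Fermat.Agent.S48.B2.Defs

/-!
# S48, B2 assembly, part 1 (helper55): matrices of additive endomorphisms of `J[ℓ]`

`T ≃+ (Fin r → ZMod ℓ)` coordinates `θ`, `k` a field of characteristic `ℓ`.

* `matOf θ g`: the matrix over `k` of an additive endomorphism `g` of `T`;
  `applyMat_eq_mulVec`, `matOf_comp`, `matOf_one`, `matOf_add`, `matOf_neg`, `matOf_natCast_smul`.
-/

set_option autoImplicit false

noncomputable section

namespace Fermat.Agent.S48.B2.H55

open Fermat.Agent.S48.B2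

variable {T : Type*} [AddCommGroup T] {ℓ r : ℕ} {k : Type} [Field k] [CharP k ℓ]

/-- The endomorphism of `(ZMod ℓ)^r` corresponding to `g` under `θ`. -/
def conjHom (θ : T ≃+ (Fin r → ZMod ℓ)) (g : T →+ T) :
    (Fin r → ZMod ℓ) →+ (Fin r → ZMod ℓ) :=
  (θ.toAddMonoidHom.comp g).comp θ.symm.toAddMonoidHom

theorem conjHom_apply (θ : T ≃+ (Fin r → ZMod ℓ)) (g : T →+ T) (u : Fin r → ZMod ℓ) :
    conjHom θ g u = θ (g (θ.symm u)) := rfl

theorem conjHom_comp (θ : T ≃+ (Fin r → ZMod ℓ)) (g h : T →+ T) :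
    conjHom θ (g.comp h) = (conjHom θ g).comp (conjHom θ h) := by
  ext u i
  simp only [conjHom_apply, AddMonoidHom.comp_apply, AddEquiv.symm_apply_apply]

/-- The matrix over `ZMod ℓ` of an additive endomorphism. -/
def matZ (θ : T ≃+ (Fin r → ZMod ℓ)) (g : T →+ T) : Matrix (Fin r) (Fin r) (ZMod ℓ) :=
  LinearMap.toMatrix' ((conjHom θ g).toZModLinearMap ℓ)

theorem matZ_apply (θ : T ≃+ (Fin r → ZMod ℓ)) (g : T →+ T) (i j : Fin r) :
    matZ θ g i j = θ (g (θ.symm (Pi.single j 1))) i := by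
  unfold matZ
  rw [LinearMap.toMatrix'_apply]
  rfl

theorem matZ_comp (θ : T ≃+ (Fin r → ZMod ℓ)) (g h : T →+ T) :
    matZ θ (g.comp h) = matZ θ g * matZ θ h := by
  unfold matZ
  rw [conjHom_comp, ← LinearMap.toMatrix'_comp]
  rfl

theorem matZ_id (θ : T ≃+ (Fin r → ZMod ℓ)) : matZ θ (AddMonoidHom.id T) = 1 := by
  unfold matZ
  rw [← LinearMap.toMatrix'_id]
  congr 1
  ext u i
  simp [conjHom_apply]

theorem matZ_add (θ : T ≃+ (Fin r → ZMod ℓ)) (g h : T →+ T) :
    matZ θ (g + h) = matZ θ g + matZ θ h := by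
  ext i j
  rw [Matrix.add_apply, matZ_apply, matZ_apply, matZ_apply, AddMonoidHom.add_apply, map_add,
    Pi.add_apply]

theorem matZ_neg (θ : T ≃+ (Fin r → ZMod ℓ)) (g : T →+ T) :
    matZ θ (-g) = -matZ θ g := by
  ext i j
  rw [Matrix.neg_apply, matZ_apply, matZ_apply, AddMonoidHom.neg_apply, map_neg, Pi.neg_apply]

theorem matZ_zero (θ : T ≃+ (Fin r → ZMod ℓ)) : matZ θ (0 : T →+ T) = 0 := by
  ext i j
  rw [Matrix.zero_apply, matZ_apply, AddMonoidHom.zero_apply, map_zero, Pi.zero_apply]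

theorem matZ_nsmul (θ : T ≃+ (Fin r → ZMod ℓ)) (n : ℕ) (g : T →+ T) :
    matZ θ (n • g) = n • matZ θ g := by
  induction n with
  | zero => rw [zero_smul, zero_smul, matZ_zero]
  | succ n ih => rw [succ_nsmul, succ_nsmul, matZ_add, ih]

/-- The matrix over `k` of an additive endomorphism. -/
def matOf (k : Type) [Field k] [CharP k ℓ] (θ : T ≃+ (Fin r → ZMod ℓ)) (g : T →+ T) :
    Matrix (Fin r) (Fin r) k :=
  (matZ θ g).map (ZMod.castHom (dvd_refl ℓ) k)

theorem matOf_apply (θ : T ≃+ (Fin r → ZMod ℓ)) (g : T →+ T) (i j : Fin r) :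
    matOf k θ g i j = (ZMod.cast (θ (g (θ.symm (Pi.single j 1))) i) : k) := by
  unfold matOf
  rw [Matrix.map_apply, matZ_apply, ZMod.castHom_apply]

theorem matOf_comp (θ : T ≃+ (Fin r → ZMod ℓ)) (g h : T →+ T) :
    matOf k θ (g.comp h) = matOf k θ g * matOf k θ h := by
  unfold matOf
  rw [matZ_comp, Matrix.map_mul]

theorem matOf_id (θ : T ≃+ (Fin r → ZMod ℓ)) : matOf k θ (AddMonoidHom.id T) = 1 := by
  unfold matOf
  rw [matZ_id, Matrix.map_one _ (map_zero _) (map_one _)]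

theorem matOf_add (θ : T ≃+ (Fin r → ZMod ℓ)) (g h : T →+ T) :
    matOf k θ (g + h) = matOf k θ g + matOf k θ h := by
  unfold matOf
  rw [matZ_add, Matrix.map_add _ (fun a b => map_add _ a b)]

theorem matOf_neg (θ : T ≃+ (Fin r → ZMod ℓ)) (g : T →+ T) :
    matOf k θ (-g) = -matOf k θ g := by
  unfold matOf
  rw [matZ_neg]
  ext i j
  simp

theorem matOf_sub (θ : T ≃+ (Fin r → ZMod ℓ)) (g h : T →+ T) :
    matOf k θ (g - h) = matOf k θ g - matOf k θ h := by
  rw [sub_eq_add_neg, matOf_add, matOf_neg, sub_eq_add_neg]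

theorem matOf_zero (θ : T ≃+ (Fin r → ZMod ℓ)) : matOf k θ (0 : T →+ T) = 0 := by
  unfold matOf
  rw [matZ_zero]
  ext i j
  simp

theorem matOf_nsmul (θ : T ≃+ (Fin r → ZMod ℓ)) (n : ℕ) (g : T →+ T) :
    matOf k θ (n • g) = (n : k) • matOf k θ g := by
  induction n with
  | zero => rw [zero_smul, Nat.cast_zero, zero_smul, matOf_zero]
  | succ n ih => rw [succ_nsmul, matOf_add, ih, Nat.cast_succ, add_smul, one_smul]

/-- `applyMat` is multiplication by `matOf`. -/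
theorem applyMat_eq_mulVec {J : Type*} [AddCommGroup J] {S : AddSubgroup J}
    (θ : ↥S ≃+ (Fin r → ZMod ℓ)) (g : ↥S →+ ↥S) (v : Fin r → k) :
    applyMat θ (⇑g) v = (matOf k θ g).mulVec v := by
  funext i
  unfold applyMat
  rw [Matrix.mulVec, dotProduct]
  refine Finset.sum_congr rfl fun j _ => ?_
  rw [matOf_apply]

/-- `applyMat` for a function which agrees with an additive map. -/
theorem applyMat_eq_mulVec' {J : Type*} [AddCommGroup J] {S : AddSubgroup J}
    (θ : ↥S ≃+ (Fin r → ZMod ℓ)) (g : ↥S →+ ↥S) (X : ↥S → ↥S) (hX : ∀ x, X x = g x)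
    (v : Fin r → k) : applyMat θ X v = (matOf k θ g).mulVec v := by
  have h : X = ⇑g := funext hX
  rw [h, applyMat_eq_mulVec]

end Fermat.Agent.S48.B2.H55
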