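import Fermat.Agent.S48.B2.H55_AsmLin
import Fermat.Agent.NEB.H14_JHData

/-!
# S48, B2 assembly, part 2 (helper55): the eigenspace `W ⊂ J_H[ℓ] ⊗ k` and its Galois action

* `resT n f`: restriction of an additive endomorphism to the `n`-torsion;
* `galT`, `galMatHom θ`: the Galois action on `J_H[ℓ]`, as matrices over `k`;
* `eigSpace`: the common eigenspace of the `T^H_q` and the diamond operators;
* `rhoEnd`: the Galois action on `eigSpace`, twisted by a character.
-/

set_option autoImplicit false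

noncomputable section

namespace Fermat.Agent.S48.B2.H55

open AlgebraicCurve ModularCurve CongruenceSubgroup
open Fermat.Agent.NEB Fermat.Agent.NEB.JH
open Fermat.Agent.S48.B2

section Res

variable {J : Type*} [AddCommGroup J]

/-- Restriction of an additive endomorphism to the `n`-torsion. -/
def resT (n : ℕ) (f : J →+ J) :
    ↥((nsmulAddMonoidHom (α := J) n).ker) →+ ↥((nsmulAddMonoidHom (α := J) n).ker) :=
  AddMonoidHom.codRestrict (f.comp (AddSubgroup.subtype _)) _ (fun x => by
    have hx : n • (x : J) = 0 := x.2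
    show n • f (x : J) = 0
    rw [← map_nsmul, hx, map_zero])

@[simp]
theorem coe_resT (n : ℕ) (f : J →+ J) (x : ↥((nsmulAddMonoidHom (α := J) n).ker)) :
    ((resT n f x : ↥((nsmulAddMonoidHom (α := J) n).ker)) : J) = f (x : J) := rfl

theorem resT_comp (n : ℕ) (f g : J →+ J) : resT n (f.comp g) = (resT n f).comp (resT n g) := by
  ext x
  rfl

theorem resT_id (n : ℕ) : resT n (AddMonoidHom.id J) = AddMonoidHom.id _ := by
  ext x
  rfl

end Res

section Gal

variable {M c : ℕ} {H : Subgroup (ZMod c)ˣ}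

/-- The Galois action on `J_H` as an additive map. -/
def galHom (M c : ℕ) (H : Subgroup (ZMod c)ˣ) (σ : GQ) : JH M c H →+ JH M c H :=
  DistribSMul.toAddMonoidHom (JH M c H) σ

@[simp]
theorem galHom_apply (σ : GQ) (x : JH M c H) : galHom M c H σ x = σ • x := rfl

theorem galHom_mul (σ τ : GQ) :
    galHom M c H (σ * τ) = (galHom M c H σ).comp (galHom M c H τ) := by
  apply AddMonoidHom.ext
  intro x
  show (σ * τ) • x = σ • τ • x
  exact mul_smul _ _ _

theorem galHom_one : galHom M c H 1 = AddMonoidHom.id _ := by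
  apply AddMonoidHom.ext
  intro x
  show (1 : GQ) • x = x
  exact one_smul _ _

variable {ℓ r : ℕ} {k : Type} [Field k] [CharP k ℓ]

/-- The Galois action on `J_H[ℓ]` in coordinates, as matrices over `k`. -/
def galMatHom (k : Type) [Field k] [CharP k ℓ] (θ : ↥(torsH M c H ℓ) ≃+ (Fin r → ZMod ℓ)) :
    GQ →* Matrix (Fin r) (Fin r) k where
  toFun σ := matOf k θ (resT ℓ (galHom M c H σ))
  map_one' := by
    rw [galHom_one, resT_id, matOf_id]
  map_mul' σ τ := by
    rw [galHom_mul, resT_comp, matOf_comp]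

theorem galMatHom_apply (θ : ↥(torsH M c H ℓ) ≃+ (Fin r → ZMod ℓ)) (σ : GQ) :
    galMatHom k θ σ = matOf k θ (resT ℓ (galHom M c H σ)) := rfl

/-- An element acting trivially on `J_H[ℓ]` has matrix `1`. -/
theorem galMatHom_eq_one (θ : ↥(torsH M c H ℓ) ≃+ (Fin r → ZMod ℓ)) (σ : GQ)
    (hσ : ∀ x : JH M c H, ℓ • x = 0 → σ • x = x) : galMatHom k θ σ = 1 := by
  have h : resT ℓ (galHom M c H σ) = AddMonoidHom.id _ := by
    ext x
    exact hσ x x.2
  rw [galMatHom_apply, h, matOf_id]

end Gal

section Eig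

variable {r : ℕ} {k : Type} [Field k]

/-- The common eigenspace of a family of matrices. -/
def eigSpace {ι : Type*} (A : ι → Matrix (Fin r) (Fin r) k) (a : ι → k) :
    Submodule k (Fin r → k) where
  carrier := {w | ∀ i, (A i).mulVec w = a i • w}
  zero_mem' := by
    intro i
    rw [Matrix.mulVec_zero, smul_zero]
  add_mem' := by
    intro x y hx hy i
    rw [Matrix.mulVec_add, hx i, hy i, smul_add]
  smul_mem' := by
    intro t x hx i
    rw [Matrix.mulVec_smul, hx i, smul_comm]

theorem mem_eigSpace {ι : Type*} (A : ι → Matrix (Fin r) (Fin r) k) (a : ι → k)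
    (w : Fin r → k) : w ∈ eigSpace A a ↔ ∀ i, (A i).mulVec w = a i • w := Iff.rfl

/-- A matrix commuting with the family preserves the common eigenspace. -/
theorem mulVec_mem_eigSpace {ι : Type*} (A : ι → Matrix (Fin r) (Fin r) k) (a : ι → k)
    (B : Matrix (Fin r) (Fin r) k) (hB : ∀ i, A i * B = B * A i) (w : Fin r → k)
    (hw : w ∈ eigSpace A a) : B.mulVec w ∈ eigSpace A a := by
  intro i
  rw [Matrix.mulVec_mulVec, hB i, ← Matrix.mulVec_mulVec, hw i, Matrix.mulVec_smul]

/-- The action on the common eigenspace of a group acting by matrices commuting with the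
family, twisted by a character. -/
def rhoEnd {G : Type*} [Group G] {ι : Type*} (A : ι → Matrix (Fin r) (Fin r) k) (a : ι → k)
    (g : G →* Matrix (Fin r) (Fin r) k) (hg : ∀ σ i, A i * g σ = g σ * A i) (η : G →* kˣ) :
    G →* Module.End k (eigSpace A a) where
  toFun σ := ((η σ : kˣ) : k) •
    (Matrix.mulVecLin (g σ)).restrict (fun w hw => mulVec_mem_eigSpace A a (g σ) (hg σ) w hw)
  map_one' := by
    apply LinearMap.ext
    intro w
    apply Subtype.ext
    simp only [map_one, Units.val_one, one_smul, LinearMap.coe_restrict_apply,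
      Matrix.mulVecLin_apply, Matrix.one_mulVec, Module.End.one_apply]
  map_mul' σ τ := by
    apply LinearMap.ext
    intro w
    apply Subtype.ext
    simp only [map_mul, Units.val_mul, LinearMap.smul_apply, Module.End.mul_apply,
      LinearMap.coe_restrict_apply, Matrix.mulVecLin_apply, Submodule.coe_smul,
      LinearMap.map_smul, ← Matrix.mulVec_mulVec, smul_smul]

theorem rhoEnd_apply_coe {G : Type*} [Group G] {ι : Type*} (A : ι → Matrix (Fin r) (Fin r) k)
    (a : ι → k) (g : G →* Matrix (Fin r) (Fin r) k) (hg : ∀ σ i, A i * g σ = g σ * A i)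
    (η : G →* kˣ) (σ : G) (w : eigSpace A a) :
    ((rhoEnd A a g hg η σ w : eigSpace A a) : Fin r → k) =
      ((η σ : kˣ) : k) • (g σ).mulVec (w : Fin r → k) := rfl

theorem rhoEnd_eq_one {G : Type*} [Group G] {ι : Type*} (A : ι → Matrix (Fin r) (Fin r) k)
    (a : ι → k) (g : G →* Matrix (Fin r) (Fin r) k) (hg : ∀ σ i, A i * g σ = g σ * A i)
    (η : G →* kˣ) (σ : G) (h1 : g σ = 1) (h2 : η σ = 1) : rhoEnd A a g hg η σ = 1 := by
  apply LinearMap.ext
  intro w
  apply Subtype.ext
  rw [rhoEnd_apply_coe, h1, h2, Units.val_one, one_smul, Matrix.one_mulVec]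
  rfl

/-- The quadratic relation on the eigenspace. -/
theorem rhoEnd_quadratic {G : Type*} [Group G] {ι : Type*}
    (A : ι → Matrix (Fin r) (Fin r) k) (a : ι → k) (g : G →* Matrix (Fin r) (Fin r) k)
    (hg : ∀ σ i, A i * g σ = g σ * A i) (η : G →* kˣ) (σ : G) (i j : ι) (n : k)
    (hrel : g σ * g σ - A i * g σ + n • A j = 0) (β γ : k)
    (h1 : ((η σ : kˣ) : k) * a i = β)
    (h2 : ((η σ : kˣ) : k) * ((η σ : kˣ) : k) * (n * a j) = γ) :
    rhoEnd A a g hg η σ * rhoEnd A a g hg η σ - β • rhoEnd A a g hg η σ +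
      γ • (1 : Module.End k (eigSpace A a)) = 0 := by
  apply LinearMap.ext
  intro w
  apply Subtype.ext
  have hw := w.2
  have hgw : (g σ).mulVec (w : Fin r → k) ∈ eigSpace A a :=
    mulVec_mem_eigSpace A a (g σ) (hg σ) _ hw
  have e1 : (A i).mulVec ((g σ).mulVec (w : Fin r → k)) = a i • (g σ).mulVec (w : Fin r → k) :=
    hgw i
  have e2 : (A j).mulVec (w : Fin r → k) = a j • (w : Fin r → k) := hw j
  have e3 := congrArg (fun B : Matrix (Fin r) (Fin r) k => B.mulVec (w : Fin r → k)) hrel
  simp only [Matrix.add_mulVec, Matrix.sub_mulVec, Matrix.smul_mulVec, Matrix.zero_mulVec,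
    ← Matrix.mulVec_mulVec, e1, e2] at e3
  simp only [LinearMap.add_apply, LinearMap.sub_apply, LinearMap.smul_apply,
    Module.End.mul_apply, Module.End.one_apply, LinearMap.zero_apply, Submodule.coe_add,
    Submodule.coe_sub, Submodule.coe_smul, Submodule.coe_zero, rhoEnd_apply_coe,
    Matrix.mulVec_smul]
  set y : k := ((η σ : kˣ) : k) with hy
  set P := (g σ).mulVec ((g σ).mulVec (w : Fin r → k)) with hP
  set Q := (g σ).mulVec (w : Fin r → k) with hQ
  have e4 : P = a i • Q - n • a j • (w : Fin r → k) := by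
    have := e3
    rw [sub_add_eq_add_sub, sub_eq_zero] at this
    rw [eq_sub_iff_add_eq]
    exact this
  rw [e4, ← h1, ← h2]
  funext m
  simp only [Pi.add_apply, Pi.sub_apply, Pi.smul_apply, smul_eq_mul, Pi.zero_apply]
  ring

/-- The quadratic relation on the eigenspace, with the diamond operator in front of `σ²`. -/
theorem rhoEnd_quadratic_diam {G : Type*} [Group G] {ι : Type*}
    (A : ι → Matrix (Fin r) (Fin r) k) (a : ι → k) (g : G →* Matrix (Fin r) (Fin r) k)
    (hg : ∀ σ i, A i * g σ = g σ * A i) (η : G →* kˣ) (σ : G) (i j : ι) (n : k)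
    (hrel : A j * (g σ * g σ) - A i * g σ + n • (1 : Matrix (Fin r) (Fin r) k) = 0) (β γ : k)
    (haj : a j ≠ 0)
    (h1 : ((η σ : kˣ) : k) * a i = β * a j)
    (h2 : ((η σ : kˣ) : k) * ((η σ : kˣ) : k) * n = γ * a j) :
    rhoEnd A a g hg η σ * rhoEnd A a g hg η σ - β • rhoEnd A a g hg η σ +
      γ • (1 : Module.End k (eigSpace A a)) = 0 := by
  apply LinearMap.ext
  intro w
  apply Subtype.ext
  have hw := w.2
  have hgw : (g σ).mulVec (w : Fin r → k) ∈ eigSpace A a :=
    mulVec_mem_eigSpace A a (g σ) (hg σ) _ hw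
  have hggw : (g σ).mulVec ((g σ).mulVec (w : Fin r → k)) ∈ eigSpace A a :=
    mulVec_mem_eigSpace A a (g σ) (hg σ) _ hgw
  have e1 : (A i).mulVec ((g σ).mulVec (w : Fin r → k)) = a i • (g σ).mulVec (w : Fin r → k) :=
    hgw i
  have e2 : (A j).mulVec ((g σ).mulVec ((g σ).mulVec (w : Fin r → k))) =
      a j • (g σ).mulVec ((g σ).mulVec (w : Fin r → k)) := hggw j
  have e3 := congrArg (fun B : Matrix (Fin r) (Fin r) k => B.mulVec (w : Fin r → k)) hrel
  simp only [Matrix.add_mulVec, Matrix.sub_mulVec, Matrix.smul_mulVec, Matrix.zero_mulVec,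
    ← Matrix.mulVec_mulVec, Matrix.one_mulVec, e1, e2] at e3
  simp only [LinearMap.add_apply, LinearMap.sub_apply, LinearMap.smul_apply,
    Module.End.mul_apply, Module.End.one_apply, LinearMap.zero_apply, Submodule.coe_add,
    Submodule.coe_sub, Submodule.coe_smul, Submodule.coe_zero, rhoEnd_apply_coe,
    Matrix.mulVec_smul]
  set y : k := ((η σ : kˣ) : k) with hy
  set P := (g σ).mulVec ((g σ).mulVec (w : Fin r → k)) with hP
  set Q := (g σ).mulVec (w : Fin r → k) with hQ
  funext m
  have e4 := congrFun e3 m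
  simp only [Pi.add_apply, Pi.sub_apply, Pi.smul_apply, smul_eq_mul, Pi.zero_apply] at e4 ⊢
  have key : a j * (y * (y * P m) - β * (y * Q m) + γ * (w : Fin r → k) m) = 0 := by
    linear_combination (y * y) * e4 + (y * Q m) * h1 - ((w : Fin r → k) m) * h2
  rcases mul_eq_zero.1 key with h0 | h0
  · exact absurd h0 haj
  · exact h0

end Eig

end Fermat.Agent.S48.B2.H55
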